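/-
IHARA track, package (I-a) [OLD0] (helper3), part 1: **the Atkin–Lehner operator `W_{q₀}` on
`Hom(Γ_H(N), A)` commutes with `T_ℓ` (`ℓ ∤ N`) and `U_ℓ` (`ℓ ∣ N / q₀`)**.

`N = Nm q₀`, `q₀ ∤ Nm`, `H ≤ (ℤ/N)ˣ` the full preimage of `Hm ≤ (ℤ/Nm)ˣ`; `w = t2wMat Nm q₀ a b`.
For an integral matrix `A` with `N ∣ A 1 0`: `A w = w X` with `X` integral, `N ∣ X 1 0`,
`X 0 0 ≡ A 0 0 mod Nm` (`ihod_mul_W`); hence `ρ_i w = E w ρ_j` with `E ∈ Γ₀(N)` for the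
representatives `ρ_i` of `T_ℓ`, `U_ℓ`, and `E 0 0 ≡ 1 mod Nm` (comparison of the upper left entries
modulo `Nm`, `ihod_diag_congr`), i.e. `E ∈ Γ_H(N)`.  The commutation then follows from helper8's
comparison of local operators (`IhtLoc.ext_of_injective`, Tw/Loc.lean).
-/
import Mathlib
import Fermat.Agent.Lib.Ihara.Hm.Part
import Fermat.Agent.Lib.Ihara.Tw.WComm
import Fermat.Agent.Lib.LR.HeckeWU

set_option autoImplicit false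
set_option linter.unusedSectionVars false
set_option linter.unusedVariables false
set_option linter.style.haveILetI false

namespace Fermat.Agent.Ihara

open Matrix MatrixGroups CongruenceSubgroup ModularCurve ModularCurve.Period Module
open Fermat.Agent.DS Fermat.Agent.T1 Fermat.Agent.T1G Fermat.Agent.T2 Fermat.Agent.LR

/-! ### Matrix lemmas -/

/-- `A w = w X` for an integral matrix `A` with `M q ∣ A 1 0`, with `X` integral,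
`M q ∣ X 1 0` and `X 0 0 ≡ A 0 0 mod M` -/
theorem ihod_mul_W (M q : ℕ) (a c : ℤ) (h : (q : ℤ) * a - M * c = 1) (x y u z : ℤ) :
    ∃ X : Matrix (Fin 2) (Fin 2) ℤ,
      !![x, y; (M : ℤ) * q * u, z] * t2wMat M q a c = t2wMat M q a c * X ∧
      ((M * q : ℕ) : ℤ) ∣ X 1 0 ∧ (M : ℤ) ∣ X 0 0 - x := by
  refine ⟨!![x * q * a + y * M * q * c - M * u * q * a - z * M * c, x + y * q - M * u - z;
      (M : ℤ) * q * (-(a * c * x) - M * c ^ 2 * y + q * a ^ 2 * u + a * c * z),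
      -(M * c * (x + y * q)) + a * (M * q * u + z * q)], ?_, ?_, ?_⟩
  · rw [t2wMat]
    ext i j
    fin_cases i <;> fin_cases j <;> simp [Matrix.mul_apply, Fin.sum_univ_two]
    · linear_combination (-(x * q * a + y * M * q * c)) * h
    · linear_combination (-(x + y * q)) * h
    · linear_combination (-((M : ℤ) * q * (u * q * a + z * c))) * h
    · linear_combination (-((M : ℤ) * q * u + z * q)) * h
  · push_cast
    exact ⟨_, rfl⟩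
  · refine ⟨x * c + y * q * c - u * q * a - z * c, ?_⟩
    show x * q * a + y * M * q * c - M * u * q * a - z * M * c - x = _
    linear_combination x * h

/-- comparison of the upper left entries modulo `M` in `A w = G w B` -/
theorem ihod_diag_congr (M q : ℕ) (a c : ℤ) (h : (q : ℤ) * a - M * c = 1)
    (A B G : Matrix (Fin 2) (Fin 2) ℤ)
    (hABG : A * t2wMat M q a c = G * (t2wMat M q a c * B)) (hB : (M : ℤ) ∣ B 1 0) :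
    (M : ℤ) ∣ A 0 0 - G 0 0 * B 0 0 := by
  obtain ⟨k, hk⟩ := hB
  have h00 := congrFun (congrFun hABG 0) 0
  simp only [t2wMat, Matrix.mul_apply, Fin.sum_univ_two, Matrix.of_apply, Matrix.cons_val',
    Matrix.cons_val_zero, Matrix.cons_val_one, Matrix.empty_val', Matrix.cons_val_fin_one] at h00
  refine ⟨-(A 0 0 * c) - A 0 1 * q * c + G 0 0 * B 0 0 * c + G 0 1 * q * c * B 0 0
    + (G 0 0 + G 0 1 * q) * k, ?_⟩
  linear_combination h00 - (A 0 0 - G 0 0 * B 0 0) * h + (G 0 0 + G 0 1 * q) * hk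

/-- the generic step: `A w = E w ρ_j` with `E ∈ Γ₀(M q)`, `E 0 0 ≡ 1 mod M` -/
theorem ihod_rep_W_aux (M q : ℕ) (hq : q ≠ 0) (a c : ℤ) (h : (q : ℤ) * a - M * c = 1)
    {ι : Type} (ρ : ι → Matrix (Fin 2) (Fin 2) ℤ)
    (hρ : ∀ j, (M : ℤ) ∣ (ρ j) 1 0 ∧ (M : ℤ) ∣ (ρ j) 0 0 - 1)
    (A : Matrix (Fin 2) (Fin 2) ℤ) (hA10 : ((M * q : ℕ) : ℤ) ∣ A 1 0) (hA00 : (M : ℤ) ∣ A 0 0 - 1)
    (hex : ∀ X : Matrix (Fin 2) (Fin 2) ℤ, X.det = A.det → ((M * q : ℕ) : ℤ) ∣ X 1 0 →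
      (M : ℤ) ∣ X 0 0 - 1 → ∃ (j : ι) (ε : SL(2, ℤ)), ε ∈ Gamma0 (M * q) ∧
        X = (ε : Matrix (Fin 2) (Fin 2) ℤ) * ρ j) :
    ∃ (j : ι) (E : SL(2, ℤ)), E ∈ Gamma0 (M * q) ∧ (M : ℤ) ∣ E 0 0 - 1 ∧
      A * t2wMat M q a c = (E : Matrix (Fin 2) (Fin 2) ℤ) * (t2wMat M q a c * ρ j) := by
  set w := t2wMat M q a c with hw
  obtain ⟨u, hu⟩ := hA10
  have hAeq : A = !![A 0 0, A 0 1; (M : ℤ) * q * u, A 1 1] := by
    ext r s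
    fin_cases r <;> fin_cases s <;> simp [hu]
  obtain ⟨X, hX, hX10, hX00⟩ := ihod_mul_W M q a c h (A 0 0) (A 0 1) u (A 1 1)
  rw [← hAeq] at hX
  have hwdet : w.det ≠ 0 := by
    rw [hw, t2wMat_det M q a c h]
    exact_mod_cast hq
  have hXdet : X.det = A.det := by
    have h1 := congrArg Matrix.det hX
    rw [Matrix.det_mul, Matrix.det_mul, mul_comm] at h1
    exact (mul_left_cancel₀ hwdet h1).symm
  have hX00' : (M : ℤ) ∣ X 0 0 - 1 := by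
    have e : X 0 0 - 1 = (X 0 0 - A 0 0) + (A 0 0 - 1) := by ring
    rw [e]
    exact dvd_add hX00 hA00
  obtain ⟨j, ε, hεmem, hε⟩ := hex X hXdet hX10 hX00'
  have hε10 : ((M * q : ℕ) : ℤ) ∣ ε 1 0 := (tdm_mem_Gamma0_iff ε).mp hεmem
  obtain ⟨E, hE, hE10, -, -⟩ :=
    ihtw_W_mul M q a c h (ε : Matrix (Fin 2) (Fin 2) ℤ) ε.2 hε10
  have hEmem : E ∈ Gamma0 (M * q) := (tdm_mem_Gamma0_iff E).mpr hE10
  have hrel : A * w = (E : Matrix (Fin 2) (Fin 2) ℤ) * (w * ρ j) := by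
    rw [hX, hε, ← Matrix.mul_assoc, hE, Matrix.mul_assoc]
  refine ⟨j, E, hEmem, ?_, hrel⟩
  have hd := ihod_diag_congr M q a c h A (ρ j) E hrel (hρ j).1
  obtain ⟨k₁, hk₁⟩ := hd
  obtain ⟨k₂, hk₂⟩ := hA00
  obtain ⟨k₃, hk₃⟩ := (hρ j).2
  exact ⟨-k₁ + k₂ - E 0 0 * k₃, by linear_combination (-1 : ℤ) * hk₁ + hk₂ - E 0 0 * hk₃⟩

/-! ### The representatives of `T_ℓ` and `U_ℓ` -/

section Rep

variable {N : ℕ} [NeZero N]

/-- entries of the representatives of `T_ℓ` -/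
theorem ihod_repT_entries {ℓ : ℕ} (hℓ : ℓ.Prime) (hℓN : ¬ ℓ ∣ N) (i : Option (Fin ℓ)) :
    (N : ℤ) ∣ (tgmRepT N hℓ hℓN i) 1 0 ∧ (N : ℤ) ∣ (tgmRepT N hℓ hℓN i) 0 0 - 1 := by
  rcases i with _ | b
  · set g := tgmGammaP N hℓ hℓN with hg
    have hgmem : g ∈ Gamma0 N := tgmGammaP_mem N hℓ hℓN
    have hgD : dshD N g = (ℓ : ZMod N) := dshD_tgmGammaP N hℓ hℓN
    have h10 : (N : ℤ) ∣ g 1 0 := (tdm_mem_Gamma0_iff g).mp hgmem
    have hdet := dsh_det_eq g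
    have h11 : (N : ℤ) ∣ g 1 1 - ℓ := by
      rw [← ZMod.intCast_zmod_eq_zero_iff_dvd]
      push_cast
      have : ((g 1 1 : ℤ) : ZMod N) = (ℓ : ZMod N) := hgD
      rw [this, sub_self]
    have e00 : (tgmRepT N hℓ hℓN none) 0 0 = g 0 0 * ℓ := by
      simp [tgmRepT, Matrix.mul_apply, Fin.sum_univ_two, hg]
    have e10 : (tgmRepT N hℓ hℓN none) 1 0 = g 1 0 * ℓ := by
      simp [tgmRepT, Matrix.mul_apply, Fin.sum_univ_two, hg]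
    obtain ⟨s, hs⟩ := h11
    obtain ⟨t, ht⟩ := h10
    refine ⟨by rw [e10, ht]; exact ⟨t * ℓ, by ring⟩, ?_⟩
    rw [e00]
    exact ⟨g 0 1 * t - g 0 0 * s, by linear_combination hdet + g 0 1 * ht - g 0 0 * hs⟩
  · refine ⟨?_, ?_⟩ <;> simp [tgmRepT]

/-- every integral matrix of determinant `ℓ` with `N ∣ X 1 0` lies in `Γ₀(N) ρ_j` -/
theorem ihod_exists_repT {ℓ : ℕ} (hℓ : ℓ.Prime) (hℓN : ¬ ℓ ∣ N) (X : Matrix (Fin 2) (Fin 2) ℤ)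
    (hdet : X.det = ℓ) (hN : (N : ℤ) ∣ X 1 0) :
    ∃ (j : Option (Fin ℓ)) (ε : SL(2, ℤ)), ε ∈ Gamma0 N ∧
      X = (ε : Matrix (Fin 2) (Fin 2) ℤ) * tgmRepT N hℓ hℓN j := by
  obtain ⟨j, ε, hε⟩ := t2f5_exists_rep hℓ hℓN X hdet hN
  rcases j with _ | b
  · refine ⟨none, (ε : SL(2, ℤ)) * (tgmGammaP N hℓ hℓN)⁻¹,
      mul_mem ε.2 (inv_mem (tgmGammaP_mem N hℓ hℓN)), ?_⟩
    rw [hε]
    show _ = _ * ((tgmGammaP N hℓ hℓN : Matrix (Fin 2) (Fin 2) ℤ) * !![(ℓ : ℤ), 0; 0, 1])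
    rw [Matrix.SpecialLinearGroup.coe_mul, Matrix.mul_assoc, tgm_SL_inv_mul_cancel]
    rfl
  · exact ⟨some b, ε, ε.2, hε⟩

variable {Nm q₀ : ℕ}

/-- **`ρ_i w = E w ρ_j`** for the representatives of `T_ℓ` -/
theorem ihod_repT_W (hq₀ : q₀ ≠ 0) (heq : N = Nm * q₀) (a b : ℤ)
    (hab : (q₀ : ℤ) * a - (Nm : ℤ) * b = 1) {ℓ : ℕ} (hℓ : ℓ.Prime) (hℓN : ¬ ℓ ∣ N)
    (i : Option (Fin ℓ)) :
    ∃ (j : Option (Fin ℓ)) (E : SL(2, ℤ)), E ∈ Gamma0 N ∧ (Nm : ℤ) ∣ E 0 0 - 1 ∧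
      tgmRepT N hℓ hℓN i * t2wMat Nm q₀ a b
        = (E : Matrix (Fin 2) (Fin 2) ℤ) * (t2wMat Nm q₀ a b * tgmRepT N hℓ hℓN j) := by
  subst heq
  have hdvd : (Nm : ℤ) ∣ ((Nm * q₀ : ℕ) : ℤ) := by push_cast; exact Dvd.intro _ rfl
  refine ihod_rep_W_aux Nm q₀ hq₀ a b hab (tgmRepT (Nm * q₀) hℓ hℓN)
    (fun j => ⟨hdvd.trans (ihod_repT_entries hℓ hℓN j).1,
      hdvd.trans (ihod_repT_entries hℓ hℓN j).2⟩) _ (ihod_repT_entries hℓ hℓN i).1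
    (hdvd.trans (ihod_repT_entries hℓ hℓN i).2) ?_
  intro X hXdet hX10 _
  rw [tgmRepT_det] at hXdet
  exact ihod_exists_repT hℓ hℓN X hXdet hX10

/-- **`ρ_i w = E w ρ_j`** for the representatives of `U_ℓ`, `ℓ ∣ Nm` -/
theorem ihod_repU_W (hq₀ : q₀ ≠ 0) (heq : N = Nm * q₀) (a b : ℤ)
    (hab : (q₀ : ℤ) * a - (Nm : ℤ) * b = 1) {ℓ : ℕ} (hℓNm : ℓ ∣ Nm) (hℓ0 : ℓ ≠ 0) (i : Fin ℓ) :
    ∃ (j : Fin ℓ) (E : SL(2, ℤ)), E ∈ Gamma0 N ∧ (Nm : ℤ) ∣ E 0 0 - 1 ∧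
      tdmRepU ℓ i * t2wMat Nm q₀ a b
        = (E : Matrix (Fin 2) (Fin 2) ℤ) * (t2wMat Nm q₀ a b * tdmRepU ℓ j) := by
  subst heq
  have hent : ∀ j : Fin ℓ, (tdmRepU ℓ j) 1 0 = 0 ∧ (tdmRepU ℓ j) 0 0 = 1 := by
    intro j
    constructor <;> simp [tdmRepU]
  refine ihod_rep_W_aux Nm q₀ hq₀ a b hab (tdmRepU ℓ)
    (fun j => ⟨by rw [(hent j).1]; exact dvd_zero _, by rw [(hent j).2, sub_self]; exact dvd_zero _⟩)
    _ (by rw [(hent i).1]; exact dvd_zero _) (by rw [(hent i).2, sub_self]; exact dvd_zero _) ?_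
  intro X hXdet hX10 hX00
  rw [tdmRepU_det] at hXdet
  have hcop : IsCoprime (X 0 0) (ℓ : ℤ) := by
    obtain ⟨k, hk⟩ := hX00
    obtain ⟨m, hm⟩ : (ℓ : ℤ) ∣ (Nm : ℤ) := Int.natCast_dvd_natCast.mpr hℓNm
    exact ⟨1, -(m * k), by rw [hm] at hk; linear_combination hk⟩
  obtain ⟨j, ε, hε⟩ := lrh_exists_repU (Dvd.dvd.mul_right hℓNm q₀) hℓ0 X hXdet hX10 hcop
  exact ⟨j, ε, ε.2, hε⟩

end Rep

/-! ### The commutation -/

section Comm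

/-- a one-element system `W` commutes with a system `S` on the same congruence subgroup as soon as
`S.rep i * w = γ * (w * S.rep j)` with `γ ∈ Γ` (torsion-free coefficients) -/
theorem ihod_comm_of_mat {Γ : Subgroup SL(2, ℤ)} {K : ℕ} (hK0 : K ≠ 0) (hK : Gamma K ≤ Γ)
    {ι : Type} [Fintype ι] (S : tdmCosetSys Γ ι) (W : tdmCosetSys Γ Unit)
    (hex : ∀ i, ∃ (j : ι) (γ : Γ), S.rep i * W.rep ()
      = ((γ : SL(2, ℤ)) : Matrix (Fin 2) (Fin 2) ℤ) * (W.rep () * S.rep j))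
    {A : Type*} [AddCommGroup A] [NoZeroSMulDivisors ℕ A] (c : Additive Γ →+ A) :
    W.hom A (S.hom A c) = S.hom A (W.hom A c) := by
  have h1 : IhtLoc (A := A) (fun c => W.hom A (S.hom A c))
      (fun p : ι × Unit => S.rep p.1 * W.rep p.2) :=
    IhtLoc.comp (IhtLoc.of_sys S hK0 hK) (IhtLoc.of_sys W hK0 hK)
  have h2 : IhtLoc (A := A) (fun c => S.hom A (W.hom A c))
      (fun p : Unit × ι => W.rep p.1 * S.rep p.2) :=
    IhtLoc.comp (IhtLoc.of_sys W hK0 hK) (IhtLoc.of_sys S hK0 hK)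
  choose τ γ hγ using hex
  have hτ : Function.Injective τ := by
    intro i i' hii
    have e1 := hγ i
    have e2 := hγ i'
    rw [hii] at e1
    have e3 : S.rep i * W.rep ()
        = (((γ i * (γ i')⁻¹ : Γ) : SL(2, ℤ)) : Matrix (Fin 2) (Fin 2) ℤ)
          * S.rep i' * W.rep () := by
      rw [Matrix.mul_assoc, e2, e1, Subgroup.coe_mul, Subgroup.coe_inv,
        Matrix.SpecialLinearGroup.coe_mul, Matrix.mul_assoc, tgm_SL_inv_mul_cancel]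
    have e4 := tdm_mul_right_cancel (W.det_ne_zero ()) e3
    have e5 : S.rep i * (((1 : Γ) : SL(2, ℤ)) : Matrix (Fin 2) (Fin 2) ℤ)
        = (((γ i * (γ i')⁻¹ : Γ) : SL(2, ℤ)) : Matrix (Fin 2) (Fin 2) ℤ) * S.rep i' := by
      rw [Subgroup.coe_one, Matrix.SpecialLinearGroup.coe_one, Matrix.mul_one]
      exact e4
    have e6 := (S.eq_of_rep_mul e5).1
    rw [S.sigmaFun_one] at e6
    exact e6.symm
  refine IhtLoc.ext_of_injective (fun p => ?_) h1 h2 (fun p => ((), τ p.1)) ?_ ?_ (fun p => ?_) c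
  · rw [Matrix.det_mul]
    exact mul_ne_zero (S.det_ne_zero _) (W.det_ne_zero _)
  · rintro ⟨i, ⟨⟩⟩ ⟨i', ⟨⟩⟩ h
    simp only [Prod.mk.injEq, true_and] at h
    rw [hτ h]
  · simp only [Fintype.card_prod, Fintype.card_unit, mul_one, one_mul]
  · obtain ⟨i, ⟨⟩⟩ := p
    exact ⟨γ i, 1, 1, one_ne_zero, by rw [one_smul, one_smul]; exact hγ i⟩

variable {N : ℕ} [NeZero N] {H : Subgroup (ZMod N)ˣ} {Nm : ℕ} {Hm : Subgroup (ZMod Nm)ˣ} {q₀ : ℕ}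

/-- `E ∈ Γ₀(N)` with `E 0 0 ≡ 1 mod Nm` lies in `Γ_H(N)` when `H` is the full preimage of `Hm` -/
theorem ihod_mem_GammaH (heq : N = Nm * q₀)
    (hH : ∀ (h : Nm ∣ N) (x : (ZMod N)ˣ), x ∈ H ↔ ZMod.unitsMap h x ∈ Hm)
    {E : SL(2, ℤ)} (hE : E ∈ Gamma0 N) (h00 : (Nm : ℤ) ∣ E 0 0 - 1) : E ∈ ihfGammaH N H := by
  have hdvd : Nm ∣ N := Dvd.intro q₀ heq.symm
  rw [ihf_mem_GammaH_iff' hE, hH hdvd]
  have h11 : (Nm : ℤ) ∣ E 1 1 - 1 := by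
    have hdet := dsh_det_eq E
    have h10 : (Nm : ℤ) ∣ E 1 0 :=
      (Int.natCast_dvd_natCast.mpr hdvd).trans ((tdm_mem_Gamma0_iff E).mp hE)
    obtain ⟨k, hk⟩ := h00
    obtain ⟨m, hm⟩ := h10
    exact ⟨-(E 1 1 * k) + E 0 1 * m, by linear_combination hdet - E 1 1 * hk + E 0 1 * hm⟩
  have h1 : ZMod.unitsMap hdvd (ihfUnitHom N ⟨E, hE⟩) = 1 := by
    apply Units.ext
    rw [ZMod.unitsMap_val, ihfUnitHom_coe, Units.val_one, dshD, ZMod.cast_intCast hdvd]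
    have h2 : ((E 1 1 : ℤ) : ZMod Nm) = ((1 : ℤ) : ZMod Nm) :=
      (ZMod.intCast_eq_intCast_iff_dvd_sub _ _ _).mpr ((dvd_sub_comm).mp h11)
    rw [h2, Int.cast_one]
  rw [h1]
  exact one_mem _

/-- **`W_{q₀}` commutes with `T_ℓ`** (`ℓ ∤ N`) on `Hom(Γ_H(N), A)` -/
theorem ihod_W_T_hom (hq₀ : q₀.Prime) (heq : N = Nm * q₀)
    (hH : ∀ (h : Nm ∣ N) (x : (ZMod N)ˣ), x ∈ H ↔ ZMod.unitsMap h x ∈ Hm)
    {A : Type*} [AddCommGroup A] [NoZeroSMulDivisors ℕ A]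
    (W : tdmCosetSys (ihfGammaH N H) Unit) (a b : ℤ) (hab : (q₀ : ℤ) * a - (Nm : ℤ) * b = 1)
    (hW : W.rep () = t2wMat Nm q₀ a b) {ℓ : ℕ} (hℓ : ℓ.Prime) (hℓN : ¬ ℓ ∣ N)
    (c : Additive (ihfGammaH N H) →+ A) :
    W.hom A ((ihfSysT N H hℓ hℓN).hom A c) = (ihfSysT N H hℓ hℓN).hom A (W.hom A c) := by
  refine ihod_comm_of_mat (NeZero.ne N) iht_Gamma_le_GammaH (ihfSysT N H hℓ hℓN) W (fun i => ?_) c
  obtain ⟨j, E, hE, hE00, hrel⟩ := ihod_repT_W hq₀.ne_zero heq a b hab hℓ hℓN i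
  exact ⟨j, ⟨E, ihod_mem_GammaH heq hH hE hE00⟩, by rw [hW, ihfSysT_rep]; exact hrel⟩

/-- **`W_{q₀}` commutes with `U_ℓ`** (`ℓ ∣ Nm`) on `Hom(Γ_H(N), A)` -/
theorem ihod_W_U_hom (hq₀ : q₀.Prime) (heq : N = Nm * q₀)
    (hH : ∀ (h : Nm ∣ N) (x : (ZMod N)ˣ), x ∈ H ↔ ZMod.unitsMap h x ∈ Hm)
    {A : Type*} [AddCommGroup A] [NoZeroSMulDivisors ℕ A]
    (W : tdmCosetSys (ihfGammaH N H) Unit) (a b : ℤ) (hab : (q₀ : ℤ) * a - (Nm : ℤ) * b = 1)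
    (hW : W.rep () = t2wMat Nm q₀ a b) {ℓ : ℕ} (hℓN : ℓ ∣ N) (hℓNm : ℓ ∣ Nm) (hℓ0 : ℓ ≠ 0)
    (c : Additive (ihfGammaH N H) →+ A) :
    W.hom A ((ihfSysU N H hℓN hℓ0).hom A c) = (ihfSysU N H hℓN hℓ0).hom A (W.hom A c) := by
  refine ihod_comm_of_mat (NeZero.ne N) iht_Gamma_le_GammaH (ihfSysU N H hℓN hℓ0) W (fun i => ?_) c
  obtain ⟨j, E, hE, hE00, hrel⟩ := ihod_repU_W (N := N) hq₀.ne_zero heq a b hab hℓNm hℓ0 i
  exact ⟨j, ⟨E, ihod_mem_GammaH heq hH hE hE00⟩, by rw [hW, ihfSysU_rep]; exact hrel⟩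

/-- **(E2)** the Atkin–Lehner operator `W_{q₀}` on `Hom_par(Γ_H(N), O)` (`N = Nm q₀`, `H` the full
preimage of `Hm`) commutes with the Hecke operators at the primes `ℓ ≠ q₀` -/
theorem ihod_W_op (hq₀ : q₀.Prime) (heq : N = Nm * q₀) (hnd : ¬ q₀ ∣ Nm)
    (hH : ∀ (h : Nm ∣ N) (x : (ZMod N)ˣ), x ∈ H ↔ ZMod.unitsMap h x ∈ Hm)
    (O : Type*) [CommRing O] [IsDomain O] [CharZero O]
    (W : tdmCosetSys (ihfGammaH N H) Unit) (a b : ℤ) (hab : (q₀ : ℤ) * a - (Nm : ℤ) * b = 1)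
    (hW : W.rep () = t2wMat Nm q₀ a b) (ℓ : ℕ) (hℓ : ℓ ≠ q₀) (x : IhfH O O N H) :
    W.homPar O O (ihmOp O N H ℓ x) = ihmOp O N H ℓ (W.homPar O O x) := by
  by_cases hp : ℓ.Prime
  swap
  · rw [ihmOp_of_not_prime O N H hp, LinearMap.zero_apply, LinearMap.zero_apply, map_zero]
  by_cases hN : ℓ ∣ N
  · have hℓNm : ℓ ∣ Nm := by
      have hN' := hN
      rw [heq] at hN'
      rcases (Nat.Prime.dvd_mul hp).mp hN' with h | h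
      · exact h
      · exact absurd ((Nat.prime_dvd_prime_iff_eq hp hq₀).mp h) hℓ
    rw [ihmOp_of_dvd O N H hp hN]
    exact Subtype.ext (ihod_W_U_hom hq₀ heq hH W a b hab hW hN hℓNm hp.ne_zero x.1)
  · rw [ihmOp_of_not_dvd O N H hp hN]
    exact Subtype.ext (ihod_W_T_hom hq₀ heq hH W a b hab hW hp hN x.1)

end Comm

end Fermat.Agent.Ihara
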