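/-
IHARA track, package (I-a) [OLD0] (helper3), part 2: **the two degeneracy maps kill the `θ`-local
classes**.

`N = Nm q₀`, `q₀ ∤ Nm` prime, `H ≤ (ℤ/N)ˣ` the full preimage of `Hm ≤ (ℤ/Nm)ˣ`;
`d₁ = C.corPar`, `d₂ = C.corPar ∘ W.homPar : Hom_par(Γ_H(N), O) → Hom_par(Γ_{Hm}(Nm), O)` for ANY
two-group coset system `C` and ANY Atkin–Lehner system `W` (`W.rep () = t2wMat Nm q₀ a b`).
Both intertwine the Hecke operators `ihmOp ℓ`, `ℓ ≠ q₀` ((E1) `hcor` = helper1's `ihm_deg_cor_op`,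
(E2) `ihod_W_op`), hence map the `θ`-part into the `θ`-part of the lower level; if the latter
vanishes (no modular form of level `Nm` with the residual eigensystem `θ`), `d₁ c = d₂ c = 0`.
-/
import Mathlib
import Fermat.Agent.Lib.Ihara.Old.WOp

set_option autoImplicit false
set_option linter.unusedSectionVars false
set_option linter.unusedVariables false
set_option linter.style.haveILetI false

namespace Fermat.Agent.Ihara

open Matrix MatrixGroups CongruenceSubgroup ModularCurve ModularCurve.Period Module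
open Fermat.Agent.DS Fermat.Agent.T1 Fermat.Agent.T1G Fermat.Agent.T2

section Old

variable {N : ℕ} [NeZero N] {H : Subgroup (ZMod N)ˣ} {Nm : ℕ} [NeZero Nm]
  {Hm : Subgroup (ZMod Nm)ˣ} {q₀ : ℕ}

/-- an honest eigenclass with eigenvalues `≡ θ` lies in the `θ`-part -/
theorem ihod_mem_part_of_eigen (O : Type) [CommRing O] [IsLocalRing O] (Ps : Set ℕ) (θ : ℕ → O)
    (c : IhfH O O N H)
    (hc : ∀ ℓ ∈ Ps, ∃ μ : O, ihmOp O N H ℓ c = μ • c ∧ μ - θ ℓ ∈ IsLocalRing.maximalIdeal O) :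
    c ∈ ihmPart O N H Ps θ := by
  unfold ihmPart
  rw [ih4p_mem_nil]
  intro i n
  obtain ⟨μ, hμ, hμθ⟩ := hc i i.2
  refine ⟨n, ?_⟩
  have hS : ihmFam O N H Ps θ i c = (μ - θ i) • c := by
    unfold ihmFam
    rw [LinearMap.sub_apply, Module.algebraMap_end_apply, hμ]
    exact (sub_smul μ (θ i) c).symm
  have key : ∀ k : ℕ, ((ihmFam O N H Ps θ i) ^ k) c = (μ - θ i) ^ k • c := by
    intro k
    induction k with
    | zero => simp
    | succ k ih =>
      rw [pow_succ', Module.End.mul_apply, ih, map_smul, hS, smul_smul, ← pow_succ]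
  rw [key]
  exact Submodule.smul_mem_smul (Ideal.pow_mem_pow hμθ n) Submodule.mem_top

/-- membership in the `θ`-part, prime by prime (the form of the last conjunct of helper6's
POINT→CLASS `ihpc_point_class`) -/
theorem ihod_mem_part_iff (O : Type) [CommRing O] [IsLocalRing O] (Ps : Set ℕ) (θ : ℕ → O)
    (c : IhfH O O N H) :
    c ∈ ihmPart O N H Ps θ ↔ ∀ ℓ ∈ Ps, c ∈ ih4pNil1 (IsLocalRing.maximalIdeal O)
      (ihmOp O N H ℓ - algebraMap O (Module.End O (IhfH O O N H)) (θ ℓ)) := by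
  unfold ihmPart ih4pNil
  rw [Submodule.mem_iInf]
  constructor
  · intro h ℓ hℓ
    exact h ⟨ℓ, hℓ⟩
  · intro h i
    exact h i i.2

/-- the `θ`-part only gets bigger when the set of primes gets smaller -/
theorem ihod_part_anti (O : Type) [CommRing O] [IsLocalRing O] {Ps Ps' : Set ℕ} (hPs : Ps' ⊆ Ps)
    (θ : ℕ → O) : ihmPart O N H Ps θ ≤ ihmPart O N H Ps' θ := by
  intro x hx
  unfold ihmPart at hx ⊢
  rw [ih4p_mem_nil] at hx ⊢
  intro i n
  exact hx ⟨i, hPs i.2⟩ n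

/-- **(I-a) [OLD0], core**: if the `θ`-part at the lower level `Γ_{Hm}(Nm)` vanishes, the two
degeneracy maps `d₁ = cor`, `d₂ = cor ∘ W_{q₀}` kill the `θ`-part at level `Γ_H(N)`; `hcor` is (E1)
(helper1's `ihm_deg_cor_op`) -/
theorem ihod_zero_of_cor (hq₀ : q₀.Prime) (heq : N = Nm * q₀) (hnd : ¬ q₀ ∣ Nm)
    (hH : ∀ (h : Nm ∣ N) (x : (ZMod N)ˣ), x ∈ H ↔ ZMod.unitsMap h x ∈ Hm)
    (O : Type) [CommRing O] [IsDomain O] [CharZero O] [IsLocalRing O]
    {I : Type} [Fintype I] (C : T2fSys₂ (ihfGammaH N H) (ihfGammaH Nm Hm) I)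
    (hcor : ∀ ℓ : ℕ, ℓ ≠ q₀ → ∀ x : IhfH O O N H,
      C.corPar O O (ihmOp O N H ℓ x) = ihmOp O Nm Hm ℓ (C.corPar O O x))
    (W : tdmCosetSys (ihfGammaH N H) Unit) (a b : ℤ) (hab : (q₀ : ℤ) * a - (Nm : ℤ) * b = 1)
    (hW : W.rep () = t2wMat Nm q₀ a b)
    {Ps Ps' : Set ℕ} (hPs : Ps' ⊆ Ps) (hq₀Ps : q₀ ∉ Ps') (θ : ℕ → O)
    (hbot : ihmPart O Nm Hm Ps' θ = ⊥) (c : IhfH O O N H) (hc : c ∈ ihmPart O N H Ps θ) :
    C.corPar O O c = 0 ∧ C.corPar O O (W.homPar O O c) = 0 := by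
  have hc' : c ∈ ihmPart O N H Ps' θ := ihod_part_anti O hPs θ hc
  have hne : ∀ i : Ps', (i : ℕ) ≠ q₀ := fun i h => hq₀Ps (h ▸ i.2)
  have hfam1 : ∀ (i : Ps') (y : IhfH O O N H),
      C.corPar O O (ihmFam O N H Ps' θ i y) = ihmFam O Nm Hm Ps' θ i (C.corPar O O y) := by
    intro i y
    unfold ihmFam
    rw [LinearMap.sub_apply, LinearMap.sub_apply, map_sub, hcor i (hne i),
      Module.algebraMap_end_apply, Module.algebraMap_end_apply, map_smul]
  have hfamW : ∀ (i : Ps') (y : IhfH O O N H),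
      W.homPar O O (ihmFam O N H Ps' θ i y) = ihmFam O N H Ps' θ i (W.homPar O O y) := by
    intro i y
    unfold ihmFam
    rw [LinearMap.sub_apply, LinearMap.sub_apply, map_sub,
      ihod_W_op hq₀ heq hnd hH O W a b hab hW i (hne i),
      Module.algebraMap_end_apply, Module.algebraMap_end_apply, map_smul]
  have h1 : C.corPar O O c ∈ ihmPart O Nm Hm Ps' θ :=
    ih4pNil_map (f := C.corPar O O) hfam1 hc'
  have h2 : C.corPar O O (W.homPar O O c) ∈ ihmPart O Nm Hm Ps' θ :=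
    ih4pNil_map (f := C.corPar O O) hfam1 (ih4pNil_map (f := W.homPar O O) hfamW hc')
  rw [hbot, Submodule.mem_bot] at h1 h2
  exact ⟨h1, h2⟩

end Old

end Fermat.Agent.Ihara
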