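/-
IHARA track, package (I-a) [OLD0] (helper3), part 3: **`d₁ c = 0 ∧ d₂ c = 0`** (consumer form).

`ihod_zero` = `ihod_zero_of_cor` (Old/Main.lean) + helper1's (E1) `ihm_deg_cor_op` (Hm/Deg.lean);
`ihod_bot_of_not_modular` = helper1's `ihm_lvl_eq_bot_iff` (Nakayama/control + `ih4_tw_list`) +
helper9's `ihr_modular_of_part_ne_bot'` (Rb/Level2.lean): the `θ`-part at level `Γ_{Hm}(Nm)`,
`Nm = N₀ ∏ Q`, vanishes as soon as `W` is NOT residually modular of level `N₀`;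
`ihod_zero_of_not_modular` = both together.
-/
import Mathlib
import Fermat.Agent.Lib.Ihara.Old.Main
import Fermat.Agent.Lib.Ihara.Hm.Deg
import Fermat.Agent.Lib.Ihara.Hm.Lvl
import Fermat.Agent.Lib.Ihara.Rb.Level2

set_option autoImplicit false
set_option linter.unusedSectionVars false
set_option linter.unusedVariables false
set_option linter.style.haveILetI false

namespace Fermat.Agent.Ihara

open Matrix MatrixGroups CongruenceSubgroup ModularCurve ModularCurve.Period Module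
open Fermat.Agent.DS Fermat.Agent.T1 Fermat.Agent.T1G Fermat.Agent.T2 IsLocalRing

section Zero

variable {N : ℕ} [NeZero N] {H : Subgroup (ZMod N)ˣ} {Nm : ℕ} [NeZero Nm]
  {Hm : Subgroup (ZMod Nm)ˣ} {q₀ : ℕ}

/-- **(I-a) [OLD0]**: `N = Nm q₀`, `H` the full preimage of `Hm`; if the `θ`-part at the lower level
`Γ_{Hm}(Nm)` (Hecke operators at `Ps' ∌ q₀`) vanishes, then the two degeneracy maps `d₁ = C.corPar`,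
`d₂ = C.corPar ∘ W.homPar` (ANY transversal system `C`, ANY Atkin–Lehner system `W`) kill every
`θ`-local class `c` of level `Γ_H(N)` — verbatim the hypotheses `h1`, `h2` of helper5's
`ihtk_mem_K` -/
theorem ihod_zero (hq₀ : q₀.Prime) (heq : N = Nm * q₀) (hnd : ¬ q₀ ∣ Nm)
    (hH : ∀ (h : Nm ∣ N) (x : (ZMod N)ˣ), x ∈ H ↔ ZMod.unitsMap h x ∈ Hm)
    (O : Type) [CommRing O] [IsDomain O] [CharZero O] [IsLocalRing O]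
    {I : Type} [Fintype I] (C : T2fSys₂ (ihfGammaH N H) (ihfGammaH Nm Hm) I)
    (hC : ∀ i, ∃ g : ihfGammaH Nm Hm, C.rep i = ((g : SL(2, ℤ)) : Matrix (Fin 2) (Fin 2) ℤ))
    (W : tdmCosetSys (ihfGammaH N H) Unit) (a b : ℤ) (hab : (q₀ : ℤ) * a - (Nm : ℤ) * b = 1)
    (hW : W.rep () = t2wMat Nm q₀ a b)
    {Ps Ps' : Set ℕ} (hPs : Ps' ⊆ Ps) (hq₀Ps : q₀ ∉ Ps') (θ : ℕ → O)
    (hbot : ihmPart O Nm Hm Ps' θ = ⊥) (c : IhfH O O N H) (hc : c ∈ ihmPart O N H Ps θ) :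
    C.corPar O O c = 0 ∧ C.corPar O O (W.homPar O O c) = 0 :=
  ihod_zero_of_cor hq₀ heq hnd hH O C
    (fun ℓ hℓ x => ihm_deg_cor_op hq₀ heq hnd hH O C hC ℓ hℓ x) W a b hab hW hPs hq₀Ps θ hbot c hc

end Zero

section Bridge

variable (O : Type) [CommRing O] [IsDomain O] [IsDiscreteValuationRing O] [CharZero O]
  [IsAdicComplete (maximalIdeal O) O] (Nm : ℕ) [NeZero Nm] (hNm : 6 ≤ Nm)
  (Hm : Subgroup (ZMod Nm)ˣ) (Ps : Set ℕ) (θ : ℕ → O)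
  {p : ℕ} (hL : IhfLevel p Nm Hm) (hpO : (p : O) ∈ maximalIdeal O)
  {ℓ₀ : ℕ} (hℓ₀ : ℓ₀.Prime) (hℓ₀M : ¬ ℓ₀ ∣ Nm) (hℓ₀Ps : ℓ₀ ∈ Ps)
  (hθ : IsUnit (θ ℓ₀ - ((ℓ₀ : O) + 1)))
  (N₀ : ℕ) [NeZero N₀] (Q : List ℕ) (hMQ : Nm = Q.foldl (· * ·) N₀) (hndQ : Q.Nodup)
  (hQ : ∀ r ∈ Q, r.Prime ∧ ¬ r ∣ N₀) (hPsQ : ∀ r ∈ Q, r ∈ Ps) (bq : ℕ → O)
  (hθQ : ∀ r ∈ Q, θ r * bq r = ((r : ℕ) : O) ∧ IsUnit (θ r) ∧ IsUnit (θ r - bq r) ∧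
    IsUnit (1 - θ r ^ 2))
  (W : WeierstrassCurve ℤ)
  (hθW : ∀ ℓ ∈ Ps, W.IsGoodPrimeFor ℓ →
    ih4Shift O θ bq Q ℓ - ((W.apOfModel ℓ : ℤ) : O) ∈ maximalIdeal O)
  (hPsW : ∀ ℓ : ℕ, ℓ.Prime → W.IsGoodPrimeFor ℓ → ¬ ℓ ∣ N₀ → ℓ ≠ p → ℓ ∈ Ps)
  (hmin : ¬ W.IsResiduallyModularOfLevel p N₀)

include hNm hL hpO hℓ₀ hℓ₀M hℓ₀Ps hθ hMQ hndQ hQ hPsQ hθQ hθW hPsW hmin in
/-- **[OLD0], arithmetic half**: the `θ`-part at level `Γ_{Hm}(Nm)`, `Nm = N₀ ∏ Q`, vanishes as soon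
as `W` is not residually modular of level `N₀` -/
theorem ihod_bot_of_not_modular : ihmPart O Nm Hm Ps θ = ⊥ := by
  rw [ihm_lvl_eq_bot_iff O Nm hNm Hm Ps θ hL hpO hℓ₀ hℓ₀M hℓ₀Ps hθ N₀ Q hMQ hndQ hQ hPsQ bq hθQ]
  by_contra h
  exact hmin (ihr_modular_of_part_ne_bot' O N₀ hL.prime hpO W Ps _ hθW hPsW h)

/-- **[OLD0], arithmetic half, EDGE CASE `Hm = ⊤`** (no Taylor–Wiles primes, e.g. `Nm = 2`: no
hypothesis `6 ≤ Nm`, no `IhfLevel`, no non-Eisenstein prime): the `θ`-part at level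
`Γ_⊤(Nm) = Γ₀(Nm)` vanishes as soon as `W` is not residually modular of level `Nm` -/
theorem ihod_bot_of_not_modular_top (O : Type) [CommRing O] [IsDomain O] [CharZero O]
    [IsLocalRing O] [IsNoetherianRing O] [IsAdicComplete (maximalIdeal O) O]
    (Nm : ℕ) [NeZero Nm] (Hm : Subgroup (ZMod Nm)ˣ) (hHm : Hm = ⊤) (Ps : Set ℕ) (θ : ℕ → O)
    {p : ℕ} (hp : p.Prime) (hpO : (p : O) ∈ maximalIdeal O) (W : WeierstrassCurve ℤ)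
    (hθW : ∀ ℓ ∈ Ps, W.IsGoodPrimeFor ℓ → θ ℓ - ((W.apOfModel ℓ : ℤ) : O) ∈ maximalIdeal O)
    (hPsW : ∀ ℓ : ℕ, ℓ.Prime → W.IsGoodPrimeFor ℓ → ¬ ℓ ∣ Nm → ℓ ≠ p → ℓ ∈ Ps)
    (hmin : ¬ W.IsResiduallyModularOfLevel p Nm) : ihmPart O Nm Hm Ps θ = ⊥ := by
  subst hHm
  have h0 : ih4Part O Nm Ps θ = ⊥ := by
    by_contra h
    exact hmin (ihr_modular_of_part_ne_bot' O Nm hp hpO W Ps θ hθW hPsW h)
  rw [eq_bot_iff]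
  intro x hx
  have h1 := (ihmTop_mem_part O Nm Ps θ).mpr hx
  rw [h0, Submodule.mem_bot] at h1
  rw [Submodule.mem_bot]
  exact (ihmTop O Nm).injective (h1.trans (map_zero _).symm)

end Bridge

section Alg

/-- `ih4Shift` commutes with a ring homomorphism -/
theorem ihod_shift_map {𝒪 R : Type} [CommRing 𝒪] [CommRing R] (f : 𝒪 →+* R) (θ bq : ℕ → 𝒪)
    (Q : List ℕ) (ℓ : ℕ) :
    ih4Shift R (fun ℓ => f (θ ℓ)) (fun ℓ => f (bq ℓ)) Q ℓ = f (ih4Shift 𝒪 θ bq Q ℓ) := by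
  classical
  by_cases h : ℓ ∈ Q
  · simp [ih4Shift, h]
  · simp [ih4Shift, h]

variable (𝒪 : Type) [CommRing 𝒪] [IsLocalRing 𝒪]
  (R : Type) [CommRing R] [IsDomain R] [IsDiscreteValuationRing R] [CharZero R]
  [IsAdicComplete (maximalIdeal R) R] [Algebra 𝒪 R] [IsLocalHom (algebraMap 𝒪 R)]
  (Nm : ℕ) [NeZero Nm] (hNm : 6 ≤ Nm)
  (Hm : Subgroup (ZMod Nm)ˣ) (Ps : Set ℕ) (θ : ℕ → 𝒪)
  {p : ℕ} (hL : IhfLevel p Nm Hm) (hpO : (p : 𝒪) ∈ maximalIdeal 𝒪)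
  {ℓ₀ : ℕ} (hℓ₀ : ℓ₀.Prime) (hℓ₀M : ¬ ℓ₀ ∣ Nm) (hℓ₀Ps : ℓ₀ ∈ Ps)
  (hθ : IsUnit (θ ℓ₀ - ((ℓ₀ : 𝒪) + 1)))
  (N₀ : ℕ) [NeZero N₀] (Q : List ℕ) (hMQ : Nm = Q.foldl (· * ·) N₀) (hndQ : Q.Nodup)
  (hQ : ∀ r ∈ Q, r.Prime ∧ ¬ r ∣ N₀) (hPsQ : ∀ r ∈ Q, r ∈ Ps) (bq : ℕ → 𝒪)
  (hθQ : ∀ r ∈ Q, θ r * bq r = ((r : ℕ) : 𝒪) ∧ IsUnit (θ r) ∧ IsUnit (θ r - bq r) ∧
    IsUnit (1 - θ r ^ 2))
  (W : WeierstrassCurve ℤ)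
  (hθW : ∀ ℓ ∈ Ps, W.IsGoodPrimeFor ℓ →
    ih4Shift 𝒪 θ bq Q ℓ - ((W.apOfModel ℓ : ℤ) : 𝒪) ∈ maximalIdeal 𝒪)
  (hPsW : ∀ ℓ : ℕ, ℓ.Prime → W.IsGoodPrimeFor ℓ → ¬ ℓ ∣ N₀ → ℓ ≠ p → ℓ ∈ Ps)
  (hmin : ¬ W.IsResiduallyModularOfLevel p N₀)

include hNm hL hpO hℓ₀ hℓ₀M hℓ₀Ps hθ hMQ hndQ hQ hPsQ hθQ hθW hPsW hmin in
/-- **[OLD0], arithmetic half, AT THE POINTS**: the eigensystem `θ`, `bq` lives over `𝒪` (with the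
hypotheses of `ihod_bot_of_not_modular` over `𝒪`, where `𝒪` is just a local ring), the coefficient
ring `R` is any complete DVR of characteristic `0` which is a local `𝒪`-algebra (e.g. `R = P.R` for
an `AlpqPoint 𝒪 A`); the `θ`-part with coefficients `R` at level `Γ_{Hm}(Nm)` vanishes -/
theorem ihod_bot_of_not_modular_alg :
    ihmPart R Nm Hm Ps (fun ℓ => algebraMap 𝒪 R (θ ℓ)) = ⊥ := by
  have hmem : ∀ x : 𝒪, x ∈ maximalIdeal 𝒪 → algebraMap 𝒪 R x ∈ maximalIdeal R :=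
    fun x hx => map_nonunit (algebraMap 𝒪 R) x hx
  refine ihod_bot_of_not_modular R Nm hNm Hm Ps (fun ℓ => algebraMap 𝒪 R (θ ℓ)) hL ?_ hℓ₀ hℓ₀M
    hℓ₀Ps ?_ N₀ Q hMQ hndQ hQ hPsQ (fun ℓ => algebraMap 𝒪 R (bq ℓ)) ?_ W ?_ hPsW hmin
  · have h := hmem _ hpO
    rwa [map_natCast] at h
  · have h := hθ.map (algebraMap 𝒪 R)
    simpa using h
  · intro r hr
    obtain ⟨h1, h2, h3, h4⟩ := hθQ r hr
    refine ⟨?_, h2.map _, ?_, ?_⟩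
    · rw [← map_mul, h1, map_natCast]
    · simpa using h3.map (algebraMap 𝒪 R)
    · simpa using h4.map (algebraMap 𝒪 R)
  · intro ℓ hℓ hg
    rw [ihod_shift_map]
    have h := hmem _ (hθW ℓ hℓ hg)
    simpa using h

/-- the same in the edge case `Hm = ⊤` (no Taylor–Wiles primes, no level bound) -/
theorem ihod_bot_of_not_modular_top_alg (𝒪 : Type) [CommRing 𝒪] [IsLocalRing 𝒪]
    (R : Type) [CommRing R] [IsDomain R] [CharZero R] [IsLocalRing R] [IsNoetherianRing R]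
    [IsAdicComplete (maximalIdeal R) R] [Algebra 𝒪 R] [IsLocalHom (algebraMap 𝒪 R)]
    (Nm : ℕ) [NeZero Nm] (Hm : Subgroup (ZMod Nm)ˣ) (hHm : Hm = ⊤) (Ps : Set ℕ) (θ : ℕ → 𝒪)
    {p : ℕ} (hp : p.Prime) (hpO : (p : 𝒪) ∈ maximalIdeal 𝒪) (W : WeierstrassCurve ℤ)
    (hθW : ∀ ℓ ∈ Ps, W.IsGoodPrimeFor ℓ → θ ℓ - ((W.apOfModel ℓ : ℤ) : 𝒪) ∈ maximalIdeal 𝒪)
    (hPsW : ∀ ℓ : ℕ, ℓ.Prime → W.IsGoodPrimeFor ℓ → ¬ ℓ ∣ Nm → ℓ ≠ p → ℓ ∈ Ps)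
    (hmin : ¬ W.IsResiduallyModularOfLevel p Nm) :
    ihmPart R Nm Hm Ps (fun ℓ => algebraMap 𝒪 R (θ ℓ)) = ⊥ := by
  have hmem : ∀ x : 𝒪, x ∈ maximalIdeal 𝒪 → algebraMap 𝒪 R x ∈ maximalIdeal R :=
    fun x hx => map_nonunit (algebraMap 𝒪 R) x hx
  refine ihod_bot_of_not_modular_top R Nm Hm hHm Ps (fun ℓ => algebraMap 𝒪 R (θ ℓ)) hp ?_ W ?_
    hPsW hmin
  · have h := hmem _ hpO
    rwa [map_natCast] at h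
  · intro ℓ hℓ hg
    have h := hmem _ (hθW ℓ hℓ hg)
    simpa using h

end Alg

section Final

variable {N : ℕ} [NeZero N] {H : Subgroup (ZMod N)ˣ} {Nm : ℕ} [NeZero Nm]
  {Hm : Subgroup (ZMod Nm)ˣ} {q₀ : ℕ}

/-- **(I-a) [OLD0], final form**: `N = Nm q₀`, `Nm = N₀ ∏ Q`, `H` the full preimage of `Hm`,
`O` an ARBITRARY complete DVR of characteristic `0` and residue characteristic `p`; if `W` is not
residually modular of level `N₀` then `d₁ c = 0 ∧ d₂ c = 0` for every class `c` of level `Γ_H(N)`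
in the `θ`-part, `θ ≡ a_ℓ(W)` (shifted at the Taylor–Wiles primes `Q`) -/
theorem ihod_zero_of_not_modular (hq₀ : q₀.Prime) (heq : N = Nm * q₀) (hnd : ¬ q₀ ∣ Nm)
    (hH : ∀ (h : Nm ∣ N) (x : (ZMod N)ˣ), x ∈ H ↔ ZMod.unitsMap h x ∈ Hm)
    (O : Type) [CommRing O] [IsDomain O] [IsDiscreteValuationRing O] [CharZero O]
    [IsAdicComplete (maximalIdeal O) O]
    {I : Type} [Fintype I] (C : T2fSys₂ (ihfGammaH N H) (ihfGammaH Nm Hm) I)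
    (hC : ∀ i, ∃ g : ihfGammaH Nm Hm, C.rep i = ((g : SL(2, ℤ)) : Matrix (Fin 2) (Fin 2) ℤ))
    (W : tdmCosetSys (ihfGammaH N H) Unit) (a b : ℤ) (hab : (q₀ : ℤ) * a - (Nm : ℤ) * b = 1)
    (hW : W.rep () = t2wMat Nm q₀ a b)
    {Ps Ps' : Set ℕ} (hPs : Ps' ⊆ Ps) (hq₀Ps : q₀ ∉ Ps') (θ : ℕ → O)
    (hNm : 6 ≤ Nm) {p : ℕ} (hL : IhfLevel p Nm Hm) (hpO : (p : O) ∈ maximalIdeal O)
    {ℓ₀ : ℕ} (hℓ₀ : ℓ₀.Prime) (hℓ₀M : ¬ ℓ₀ ∣ Nm) (hℓ₀Ps : ℓ₀ ∈ Ps')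
    (hθ : IsUnit (θ ℓ₀ - ((ℓ₀ : O) + 1)))
    (N₀ : ℕ) [NeZero N₀] (Q : List ℕ) (hMQ : Nm = Q.foldl (· * ·) N₀) (hndQ : Q.Nodup)
    (hQ : ∀ r ∈ Q, r.Prime ∧ ¬ r ∣ N₀) (hPsQ : ∀ r ∈ Q, r ∈ Ps') (bq : ℕ → O)
    (hθQ : ∀ r ∈ Q, θ r * bq r = ((r : ℕ) : O) ∧ IsUnit (θ r) ∧ IsUnit (θ r - bq r) ∧
      IsUnit (1 - θ r ^ 2))
    (E : WeierstrassCurve ℤ)
    (hθW : ∀ ℓ ∈ Ps', E.IsGoodPrimeFor ℓ →
      ih4Shift O θ bq Q ℓ - ((E.apOfModel ℓ : ℤ) : O) ∈ maximalIdeal O)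
    (hPsW : ∀ ℓ : ℕ, ℓ.Prime → E.IsGoodPrimeFor ℓ → ¬ ℓ ∣ N₀ → ℓ ≠ p → ℓ ∈ Ps')
    (hmin : ¬ E.IsResiduallyModularOfLevel p N₀)
    (c : IhfH O O N H) (hc : c ∈ ihmPart O N H Ps θ) :
    C.corPar O O c = 0 ∧ C.corPar O O (W.homPar O O c) = 0 :=
  ihod_zero hq₀ heq hnd hH O C hC W a b hab hW hPs hq₀Ps θ
    (ihod_bot_of_not_modular O Nm hNm Hm Ps' θ hL hpO hℓ₀ hℓ₀M hℓ₀Ps hθ N₀ Q hMQ hndQ hQ hPsQ bq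
      hθQ E hθW hPsW hmin) c hc

end Final

end Fermat.Agent.Ihara
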